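import Mathlib
import Fermat.Agent.LT.T7.H305.MatchCut
import Fermat.Agent.LT.T7.H584.NormLocClosed

/-!
# Row LT, tower T7, node C2.7 `CutIntC305`, leaf C2.7.12 `NonNormLocC305` (helper857)

OFF-MAIN (registry row 2576).  No hole, nothing assumed.

    nonNormLocC857 (K K') : H305.NonNormLocC305 K K'

VERBATIM vs `LT/T7/H305/MatchCut.lean` (helper305@56ddcdc02, sha256 0f302b81).

Proof.  The node `H584.NonNormLocC584` (helper584, closed on tower T6: `nonNormLocC584`, with the
leaves N1 helper584, N2 helper122, N3 helper768) gives a finite place `v` with exactly one place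
`w` over it at which `γ` is not a local norm for ALL local extension data `(e, i, s_w)`;
`T6.InstExtC` (a component of `T6.T6Out`) gives ONE such datum.  The generator of the Galois
group as a `K`-algebra automorphism is `H584.algAut584`.
-/

set_option autoImplicit false
set_option linter.style.haveILetI false
set_option linter.unusedSectionVars false

open IsDedekindDomain NumberField

noncomputable section

namespace Fermat.Agent.LT.T7.H857

open Fermat.Agent.LT.H556.A0 Fermat.Agent.LT.T7

section

variable {K K' : Type} [Field K] [NumberField K] [Field K'] [NumberField K'] [Algebra K K']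

/-- `PlaceOver` in the form of the hypotheses of `T6.InstExtC`. -/
theorem placeOver_mem_iff857 {v : HeightOneSpectrum (𝓞 K)} {w : HeightOneSpectrum (𝓞 K')}
    (h : PlaceOver K K' v w) (x : 𝓞 K) :
    x ∈ v.asIdeal ↔ algebraMap (𝓞 K) (𝓞 K') x ∈ w.asIdeal :=
  h x (algebraMap (𝓞 K) (𝓞 K') x) rfl

/-- A place of `K'` whose contraction contains `v` lies over `v` (`v` is maximal). -/
theorem placeOver_of_le857 {v : HeightOneSpectrum (𝓞 K)} {w : HeightOneSpectrum (𝓞 K')}
    (h : ∀ x : 𝓞 K, x ∈ v.asIdeal → algebraMap (𝓞 K) (𝓞 K') x ∈ w.asIdeal) :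
    PlaceOver K K' v w := by
  rw [H557.placeOver_iff_557]
  haveI := w.isPrime
  have hle : v.asIdeal ≤ Ideal.comap (algebraMap (𝓞 K) (𝓞 K')) w.asIdeal := fun x hx =>
    Ideal.mem_comap.2 (h x hx)
  have hprime : (Ideal.comap (algebraMap (𝓞 K) (𝓞 K')) w.asIdeal).IsPrime :=
    Ideal.comap_isPrime _ _
  exact v.isMaximal.eq_of_le hprime.ne_top hle

end

variable (K K' : Type) [Field K] [NumberField K] [Field K'] [NumberField K'] [Algebra K K']

/-- **LEAF C2.7.12 = NON-NORM-LOC** (VERBATIM `H305.NonNormLocC305`). -/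
theorem nonNormLocC857 : H305.NonNormLocC305 K K' := by
  intro hT6 D hD hc _ hTC γ hγ hnn
  obtain ⟨_, _, _, hNI, _, _, hIE, hIS, _⟩ := hT6
  obtain ⟨v, w, hvw, huniq, hall⟩ := H584.nonNormLocC584 K K' hNI hIS D hD hc hTC γ hγ hnn
  haveI := hc.galois
  have hprime : (Module.finrank K K').Prime := by rw [hc.degree]; exact hc.prime
  obtain ⟨e, i, sw, hi, hsw, hext, _⟩ :=
    hIE K K' (H584.algAut584 D hD) (H584.algAut_gen584 D hD hc) hprime v w
      (placeOver_mem_iff857 hvw) (fun w' hw' => huniq w' (placeOver_of_le857 hw'))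
  have hext' : T6.IsLocalExt (v.adicCompletion K) (w.adicCompletion K') D.l e i sw := by
    have hdeg := hc.degree
    rw [hdeg] at hext
    exact hext
  exact ⟨v, w, e, i, sw, hvw, huniq, hi, fun y => hsw y, hext',
    hall e i sw hi (fun y => hsw y) hext'⟩

end Fermat.Agent.LT.T7.H857

end
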